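import Mathlib

/-!
# Eichler integrals: basic definitions (helper21, for S22)
-/

set_option autoImplicit false

noncomputable section

namespace Fermat.Agent.H21

open UpperHalfPlane
open scoped MatrixGroups ModularForm

/-- Substitution action of a real `2 × 2` matrix on functions of two complex variables. -/
def subst (g : GL (Fin 2) ℝ) (P : ℂ → ℂ → ℂ) : ℂ → ℂ → ℂ :=
  fun X Y => P ((g 0 0 : ℝ) * X + (g 0 1 : ℝ) * Y) ((g 1 0 : ℝ) * X + (g 1 1 : ℝ) * Y)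

theorem subst_apply (g : GL (Fin 2) ℝ) (P : ℂ → ℂ → ℂ) (X Y : ℂ) :
    subst g P X Y =
      P ((g 0 0 : ℝ) * X + (g 0 1 : ℝ) * Y) ((g 1 0 : ℝ) * X + (g 1 1 : ℝ) * Y) := rfl

@[simp] theorem subst_one (P : ℂ → ℂ → ℂ) : subst 1 P = P := by
  funext X Y
  simp [subst]

theorem subst_mul (g h : GL (Fin 2) ℝ) (P : ℂ → ℂ → ℂ) :
    subst (g * h) P = subst h (subst g P) := by
  funext X Y
  simp only [subst, Matrix.GeneralLinearGroup.coe_mul, Matrix.mul_apply, Fin.sum_univ_two]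
  congr 1 <;> push_cast <;> ring

@[simp] theorem subst_zero (g : GL (Fin 2) ℝ) : subst g 0 = 0 := rfl

theorem subst_add (g : GL (Fin 2) ℝ) (P Q : ℂ → ℂ → ℂ) :
    subst g (P + Q) = subst g P + subst g Q := rfl

theorem subst_sub (g : GL (Fin 2) ℝ) (P Q : ℂ → ℂ → ℂ) :
    subst g (P - Q) = subst g P - subst g Q := rfl

theorem subst_neg (g : GL (Fin 2) ℝ) (P : ℂ → ℂ → ℂ) :
    subst g (-P) = -subst g P := rfl

theorem subst_smul (g : GL (Fin 2) ℝ) (c : ℂ) (P : ℂ → ℂ → ℂ) :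
    subst g (c • P) = c • subst g P := rfl

theorem subst_mul_fun (g : GL (Fin 2) ℝ) (P Q : ℂ → ℂ → ℂ) :
    subst g (P * Q) = subst g P * subst g Q := rfl

/-- `subst g` as a `ℂ`-linear map. -/
def substL (g : GL (Fin 2) ℝ) : (ℂ → ℂ → ℂ) →ₗ[ℂ] (ℂ → ℂ → ℂ) where
  toFun := subst g
  map_add' := subst_add g
  map_smul' := subst_smul g

@[simp] theorem substL_apply (g : GL (Fin 2) ℝ) (P : ℂ → ℂ → ℂ) : substL g P = subst g P := rfl

theorem subst_sum {ι : Type*} (s : Finset ι) (g : GL (Fin 2) ℝ) (P : ι → ℂ → ℂ → ℂ) :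
    subst g (∑ i ∈ s, P i) = ∑ i ∈ s, subst g (P i) :=
  map_sum (substL g) P s

/-- The action of `GL₂(ℝ)` on vector valued functions on the upper half plane. -/
def act (g : GL (Fin 2) ℝ) (I : ℍ → ℂ → ℂ → ℂ) : ℍ → ℂ → ℂ → ℂ :=
  fun τ => subst g (I (g • τ))

theorem act_apply (g : GL (Fin 2) ℝ) (I : ℍ → ℂ → ℂ → ℂ) (τ : ℍ) :
    act g I τ = subst g (I (g • τ)) := rfl

@[simp] theorem act_one (I : ℍ → ℂ → ℂ → ℂ) : act 1 I = I := by
  funext τ
  simp [act]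

theorem act_mul (g h : GL (Fin 2) ℝ) (I : ℍ → ℂ → ℂ → ℂ) :
    act (g * h) I = act h (act g I) := by
  funext τ
  simp only [act, subst_mul, mul_smul]

theorem act_add (g : GL (Fin 2) ℝ) (I J : ℍ → ℂ → ℂ → ℂ) :
    act g (I + J) = act g I + act g J := rfl

theorem act_sub (g : GL (Fin 2) ℝ) (I J : ℍ → ℂ → ℂ → ℂ) :
    act g (I - J) = act g I - act g J := rfl

theorem act_const (g : GL (Fin 2) ℝ) (K : ℂ → ℂ → ℂ) :
    act g (fun _ => K) = fun _ => subst g K := rfl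

theorem act_sum {ι : Type*} (s : Finset ι) (g : GL (Fin 2) ℝ) (I : ι → ℍ → ℂ → ℂ → ℂ) :
    act g (∑ i ∈ s, I i) = ∑ i ∈ s, act g (I i) := by
  funext τ
  simp only [act, Finset.sum_apply, subst_sum]

/-- `I` is an Eichler integral of weight `w + 2` for `f`:
`∂/∂τ I(τ)(X,Y) = f(τ) (X - τ Y)^w`. -/
def IsEI (w : ℕ) (f : ℍ → ℂ) (I : ℍ → ℂ → ℂ → ℂ) : Prop :=
  ∀ (X Y : ℂ) (τ : ℍ),
    HasDerivAt (fun z : ℂ => I (ofComplex z) X Y) (f τ * (X - (τ : ℂ) * Y) ^ w) (τ : ℂ)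

theorem IsEI.zero (w : ℕ) : IsEI w 0 0 := by
  intro X Y τ
  simpa using hasDerivAt_const (τ : ℂ) (0 : ℂ)

theorem IsEI.add {w : ℕ} {f f' : ℍ → ℂ} {I I' : ℍ → ℂ → ℂ → ℂ}
    (h : IsEI w f I) (h' : IsEI w f' I') : IsEI w (f + f') (I + I') := by
  intro X Y τ
  have := (h X Y τ).fun_add (h' X Y τ)
  simpa [add_mul] using this

theorem IsEI.neg {w : ℕ} {f : ℍ → ℂ} {I : ℍ → ℂ → ℂ → ℂ}
    (h : IsEI w f I) : IsEI w (-f) (-I) := by
  intro X Y τ
  have := (h X Y τ).fun_neg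
  simpa [neg_mul] using this

theorem IsEI.sub {w : ℕ} {f f' : ℍ → ℂ} {I I' : ℍ → ℂ → ℂ → ℂ}
    (h : IsEI w f I) (h' : IsEI w f' I') : IsEI w (f - f') (I - I') := by
  intro X Y τ
  have := (h X Y τ).fun_sub (h' X Y τ)
  simpa [sub_mul] using this

theorem IsEI.smul {w : ℕ} {f : ℍ → ℂ} {I : ℍ → ℂ → ℂ → ℂ} (c : ℂ)
    (h : IsEI w f I) : IsEI w (c • f) (c • I) := by
  intro X Y τ
  have := (h X Y τ).const_mul c
  simpa [mul_assoc] using this

theorem IsEI.sum {ι : Type*} (s : Finset ι) {w : ℕ} {f : ι → ℍ → ℂ} {I : ι → ℍ → ℂ → ℂ → ℂ}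
    (h : ∀ i ∈ s, IsEI w (f i) (I i)) : IsEI w (∑ i ∈ s, f i) (∑ i ∈ s, I i) := by
  classical
  induction s using Finset.induction_on with
  | empty => simpa using IsEI.zero w
  | insert a s ha ih =>
    rw [Finset.sum_insert ha, Finset.sum_insert ha]
    exact (h a (Finset.mem_insert_self a s)).add
      (ih fun i hi => h i (Finset.mem_insert_of_mem hi))

theorem IsEI.add_const {w : ℕ} {f : ℍ → ℂ} {I : ℍ → ℂ → ℂ → ℂ}
    (h : IsEI w f I) (K : ℂ → ℂ → ℂ) : IsEI w f (fun τ => I τ + K) := by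
  intro X Y τ
  have := (h X Y τ).add_const (K X Y)
  simpa using this

/-- Derivative of the Möbius action. -/
theorem hasDerivAt_smul_coe {g : GL (Fin 2) ℝ} (hg : 0 < g.det.val) (τ : ℍ) :
    HasDerivAt (fun z : ℂ => ((g • ofComplex z : ℍ) : ℂ))
      ((g.det.val : ℂ) / denom g τ ^ 2) (τ : ℂ) := by
  have hden : denom g τ ≠ 0 := denom_ne_zero g τ
  have h1 : HasDerivAt (fun z : ℂ => num g z / denom g z)
      ((g.det.val : ℂ) / denom g τ ^ 2) (τ : ℂ) := by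
    have hn : HasDerivAt (fun z : ℂ => num g z) ((g 0 0 : ℝ) : ℂ) (τ : ℂ) := by
      simp only [num]
      simpa using ((hasDerivAt_id (τ : ℂ)).const_mul ((g 0 0 : ℝ) : ℂ)).add_const ((g 0 1 : ℝ) : ℂ)
    have hd : HasDerivAt (fun z : ℂ => denom g z) ((g 1 0 : ℝ) : ℂ) (τ : ℂ) := by
      simp only [denom]
      simpa using ((hasDerivAt_id (τ : ℂ)).const_mul ((g 1 0 : ℝ) : ℂ)).add_const ((g 1 1 : ℝ) : ℂ)
    have hdet : (g.det.val : ℂ) = (g 0 0 : ℝ) * (g 1 1 : ℝ) - (g 0 1 : ℝ) * (g 1 0 : ℝ) := by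
      rw [Matrix.GeneralLinearGroup.val_det_apply, Matrix.det_fin_two]
      push_cast
      ring
    refine (hn.fun_div hd hden).congr_deriv ?_
    rw [hdet]
    simp only [num, denom]
    ring
  refine h1.congr_of_eventuallyEq ?_
  filter_upwards [isOpen_upperHalfPlaneSet.mem_nhds τ.2] with z hz
  rw [coe_smul_of_det_pos hg, ofComplex_apply_of_im_pos hz]

theorem slash_apply_of_det_pos {g : GL (Fin 2) ℝ} (hg : 0 < g.det.val) (k : ℤ) (f : ℍ → ℂ)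
    (τ : ℍ) :
    (f ∣[k] g) τ = f (g • τ) * (g.det.val : ℂ) ^ (k - 1) * denom g τ ^ (-k) := by
  rw [ModularForm.slash_apply, UpperHalfPlane.σ, if_pos hg, abs_of_pos hg]
  rfl

/-- Key algebraic identity behind the transformation of the kernel `(X - τ Y)^w`. -/
theorem kernel_transform {g : GL (Fin 2) ℝ} (hg : 0 < g.det.val) (τ : ℍ) (X Y : ℂ) :
    ((g 0 0 : ℝ) * X + (g 0 1 : ℝ) * Y) - ((g • τ : ℍ) : ℂ) * ((g 1 0 : ℝ) * X + (g 1 1 : ℝ) * Y)
      = (g.det.val : ℂ) * (X - (τ : ℂ) * Y) / denom g τ := by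
  have hden : denom g τ ≠ 0 := denom_ne_zero g τ
  have hdet : (g.det.val : ℂ) = (g 0 0 : ℝ) * (g 1 1 : ℝ) - (g 0 1 : ℝ) * (g 1 0 : ℝ) := by
    rw [Matrix.GeneralLinearGroup.val_det_apply, Matrix.det_fin_two]
    push_cast
    ring
  rw [coe_smul_of_det_pos hg, hdet]
  field_simp
  simp only [num, denom]
  ring

theorem IsEI.slash {w : ℕ} {f : ℍ → ℂ} {I : ℍ → ℂ → ℂ → ℂ} (h : IsEI w f I)
    {g : GL (Fin 2) ℝ} (hg : 0 < g.det.val) :
    IsEI w (f ∣[(w : ℤ) + 2] g) (act g I) := by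
  intro X Y τ
  have hden : denom g τ ≠ 0 := denom_ne_zero g τ
  have h1 := h ((g 0 0 : ℝ) * X + (g 0 1 : ℝ) * Y) ((g 1 0 : ℝ) * X + (g 1 1 : ℝ) * Y) (g • τ)
  have h2 := hasDerivAt_smul_coe hg τ
  have h3 : HasDerivAt (fun z : ℂ => ((g • ofComplex z : ℍ) : ℂ))
      ((g.det.val : ℂ) / denom g τ ^ 2) (τ : ℂ) := h2
  have hτ : ((g • ofComplex (τ : ℂ) : ℍ) : ℂ) = ((g • τ : ℍ) : ℂ) := by
    rw [ofComplex_apply]
  rw [← hτ] at h1
  have h4 := HasDerivAt.comp (τ : ℂ) h1 h3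
  have hfun : ((fun z : ℂ => I (ofComplex z) ((g 0 0 : ℝ) * X + (g 0 1 : ℝ) * Y)
      ((g 1 0 : ℝ) * X + (g 1 1 : ℝ) * Y)) ∘ fun z : ℂ => ((g • ofComplex z : ℍ) : ℂ))
      = fun z : ℂ => act g I (ofComplex z) X Y := by
    funext z
    simp only [Function.comp_apply, ofComplex_apply, act, subst]
  rw [hfun] at h4
  refine h4.congr_deriv ?_
  rw [slash_apply_of_det_pos hg, hτ, kernel_transform hg]
  have e1 : ((w : ℤ) + 2 - 1) = ((w + 1 : ℕ) : ℤ) := by push_cast; ring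
  have e2 : (-((w : ℤ) + 2)) = -((w + 2 : ℕ) : ℤ) := by push_cast; ring
  rw [e1, e2, zpow_natCast, zpow_neg, zpow_natCast, div_pow, mul_pow]
  field_simp
  ring

/-- Two Eichler integrals of the same function differ by a constant. -/
theorem IsEI.exists_const {w : ℕ} {f : ℍ → ℂ} {I I' : ℍ → ℂ → ℂ → ℂ}
    (h : IsEI w f I) (h' : IsEI w f I') : ∃ K : ℂ → ℂ → ℂ, ∀ τ, I' τ = I τ + K := by
  refine ⟨I' UpperHalfPlane.I - I UpperHalfPlane.I, fun τ => ?_⟩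
  funext X Y
  have hconv : Convex ℝ {z : ℂ | 0 < z.im} := by
    have : {z : ℂ | 0 < z.im} = Complex.im ⁻¹' Set.Ioi 0 := rfl
    rw [this]
    exact (convex_Ioi (0 : ℝ)).is_linear_preimage Complex.imLm.isLinear
  have hderiv : ∀ z ∈ {z : ℂ | 0 < z.im},
      HasDerivAt (fun z : ℂ => I' (ofComplex z) X Y - I (ofComplex z) X Y) 0 z := by
    intro z hz
    have h1 := h' X Y ⟨z, hz⟩
    have h2 := h X Y ⟨z, hz⟩
    simpa using h1.fun_sub h2
  have hdiff : DifferentiableOn ℂ (fun z : ℂ => I' (ofComplex z) X Y - I (ofComplex z) X Y)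
      {z : ℂ | 0 < z.im} := fun z hz => (hderiv z hz).differentiableAt.differentiableWithinAt
  have hzero : ∀ z ∈ {z : ℂ | 0 < z.im},
      fderivWithin ℂ (fun z : ℂ => I' (ofComplex z) X Y - I (ofComplex z) X Y)
        {z : ℂ | 0 < z.im} z = 0 := by
    intro z hz
    rw [fderivWithin_eq_fderiv (isOpen_upperHalfPlaneSet.uniqueDiffWithinAt hz)
      (hderiv z hz).differentiableAt]
    have := (hderiv z hz).hasFDerivAt.fderiv
    rw [this]
    ext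
    simp
  have := hconv.is_const_of_fderivWithin_eq_zero hdiff hzero τ.2 UpperHalfPlane.I.2
  simp only [ofComplex_apply] at this
  simp only [Pi.add_apply, Pi.sub_apply]
  linear_combination this

end Fermat.Agent.H21
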