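import Mathlib
import Fermat.Agent.H21.Basic

/-!
# Homogeneous polynomial functions of two variables (helper21, for S22)
-/

set_option autoImplicit false

noncomputable section

namespace Fermat.Agent.H21

open scoped MatrixGroups

/-- The monomial function `X^j Y^(w-j)`. -/
def monoFun (w j : ℕ) : ℂ → ℂ → ℂ := fun X Y => X ^ j * Y ^ (w - j)

theorem monoFun_apply (w j : ℕ) (X Y : ℂ) : monoFun w j X Y = X ^ j * Y ^ (w - j) := rfl

/-- Homogeneous polynomial functions of degree `w` with coefficients in (the image of) `R`. -/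
def poly (R : Type*) [CommRing R] [Algebra R ℂ] (w : ℕ) : Submodule R (ℂ → ℂ → ℂ) :=
  Submodule.span R (Set.range fun j : Fin (w + 1) => monoFun w j)

variable {R : Type*} [CommRing R] [Algebra R ℂ]

theorem monoFun_mem_poly {w j : ℕ} (hj : j ≤ w) : monoFun w j ∈ poly R w :=
  Submodule.subset_span ⟨⟨j, Nat.lt_succ_of_le hj⟩, rfl⟩

theorem monoFun_mul_monoFun {n m i j : ℕ} (hi : i ≤ n) (hj : j ≤ m) :
    monoFun n i * monoFun m j = monoFun (n + m) (i + j) := by
  funext X Y
  simp only [Pi.mul_apply, monoFun_apply]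
  have : n + m - (i + j) = (n - i) + (m - j) := by omega
  rw [this, pow_add, pow_add]
  ring

theorem poly_mul_mem {n m : ℕ} {u v : ℂ → ℂ → ℂ} (hu : u ∈ poly R n) (hv : v ∈ poly R m) :
    u * v ∈ poly R (n + m) := by
  have h : poly R n * poly R m ≤ poly R (n + m) := by
    rw [poly, poly, Submodule.span_mul_span, Submodule.span_le]
    rintro _ ⟨_, ⟨i, rfl⟩, _, ⟨j, rfl⟩, rfl⟩
    simp only
    rw [monoFun_mul_monoFun (Nat.lt_succ_iff.mp i.2) (Nat.lt_succ_iff.mp j.2)]
    exact monoFun_mem_poly (by have := i.2; have := j.2; omega)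
  exact h (Submodule.mul_mem_mul hu hv)

theorem one_mem_poly_zero : (1 : ℂ → ℂ → ℂ) ∈ poly R 0 := by
  have : (1 : ℂ → ℂ → ℂ) = monoFun 0 0 := by
    funext X Y
    simp [monoFun]
  rw [this]
  exact monoFun_mem_poly le_rfl

theorem poly_pow_mem {u : ℂ → ℂ → ℂ} (hu : u ∈ poly R 1) (j : ℕ) : u ^ j ∈ poly R j := by
  induction j with
  | zero => simpa using one_mem_poly_zero (R := R)
  | succ j ih =>
    rw [pow_succ]
    exact poly_mul_mem ih hu

theorem linForm_mem_poly (a b : R) :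
    (fun X Y : ℂ => algebraMap R ℂ a * X + algebraMap R ℂ b * Y) ∈ poly R 1 := by
  have h1 : (fun X Y : ℂ => algebraMap R ℂ a * X + algebraMap R ℂ b * Y)
      = a • monoFun 1 1 + b • monoFun 1 0 := by
    funext X Y
    simp [monoFun, Algebra.smul_def]
  rw [h1]
  exact Submodule.add_mem _ (Submodule.smul_mem _ _ (monoFun_mem_poly le_rfl))
    (Submodule.smul_mem _ _ (monoFun_mem_poly (Nat.zero_le 1)))

/-- A real matrix has entries in (the image of) `R`. -/
def HasEntriesIn (R : Type*) [CommRing R] [Algebra R ℂ] (g : GL (Fin 2) ℝ) : Prop :=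
  ∀ i j : Fin 2, ∃ r : R, ((g i j : ℝ) : ℂ) = algebraMap R ℂ r

theorem hasEntriesIn_complex (g : GL (Fin 2) ℝ) : HasEntriesIn ℂ g :=
  fun i j => ⟨((g i j : ℝ) : ℂ), rfl⟩

theorem subst_monoFun_mem {g : GL (Fin 2) ℝ} (hg : HasEntriesIn R g) {w j : ℕ} (hj : j ≤ w) :
    subst g (monoFun w j) ∈ poly R w := by
  obtain ⟨a, ha⟩ := hg 0 0
  obtain ⟨b, hb⟩ := hg 0 1
  obtain ⟨c, hc⟩ := hg 1 0
  obtain ⟨d, hd⟩ := hg 1 1
  have h1 : subst g (monoFun w j)
      = (fun X Y : ℂ => algebraMap R ℂ a * X + algebraMap R ℂ b * Y) ^ j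
        * (fun X Y : ℂ => algebraMap R ℂ c * X + algebraMap R ℂ d * Y) ^ (w - j) := by
    funext X Y
    simp only [subst, monoFun, Pi.mul_apply, Pi.pow_apply, ha, hb, hc, hd]
  rw [h1]
  have := poly_mul_mem (poly_pow_mem (linForm_mem_poly a b) j)
    (poly_pow_mem (linForm_mem_poly c d) (w - j))
  rwa [Nat.add_sub_cancel' hj] at this

theorem subst_smul_R (g : GL (Fin 2) ℝ) (r : R) (P : ℂ → ℂ → ℂ) :
    subst g (r • P) = r • subst g P := rfl

theorem subst_mem_poly {g : GL (Fin 2) ℝ} (hg : HasEntriesIn R g) {w : ℕ} {P : ℂ → ℂ → ℂ}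
    (hP : P ∈ poly R w) : subst g P ∈ poly R w := by
  induction hP using Submodule.span_induction with
  | mem x hx =>
    obtain ⟨j, rfl⟩ := hx
    exact subst_monoFun_mem hg (Nat.lt_succ_iff.mp j.2)
  | zero => simp
  | add x y _ _ hx hy =>
    rw [subst_add]
    exact Submodule.add_mem _ hx hy
  | smul r x _ hx =>
    rw [subst_smul_R]
    exact Submodule.smul_mem _ _ hx

/-- Elements of `poly ℂ w` are homogeneous of degree `w`. -/
theorem poly_homogeneous {w : ℕ} {P : ℂ → ℂ → ℂ} (hP : P ∈ poly ℂ w) (c X Y : ℂ) :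
    P (c * X) (c * Y) = c ^ w * P X Y := by
  induction hP using Submodule.span_induction with
  | mem x hx =>
    obtain ⟨j, rfl⟩ := hx
    have hj : (j : ℕ) ≤ w := Nat.lt_succ_iff.mp j.2
    simp only [monoFun_apply, mul_pow]
    have : c ^ w = c ^ (j : ℕ) * c ^ (w - j) := by rw [← pow_add, Nat.add_sub_cancel' hj]
    rw [this]
    ring
  | zero => simp
  | add x y _ _ hx hy =>
    simp only [Pi.add_apply, hx, hy]
    ring
  | smul r x _ hx =>
    simp only [Pi.smul_apply, hx, smul_eq_mul]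
    ring

/-- Elements of `poly ℂ w` have coefficients. -/
theorem poly_exists_coeff {w : ℕ} {P : ℂ → ℂ → ℂ} (hP : P ∈ poly ℂ w) :
    ∃ p : ℕ → ℂ, ∀ X Y : ℂ, P X Y = ∑ j ∈ Finset.range (w + 1), p j * X ^ j * Y ^ (w - j) := by
  rw [poly, Submodule.mem_span_range_iff_exists_fun] at hP
  obtain ⟨c, rfl⟩ := hP
  refine ⟨fun j => if h : j < w + 1 then c ⟨j, h⟩ else 0, fun X Y => ?_⟩
  rw [Finset.sum_range]
  simp only [Finset.sum_apply, Pi.smul_apply, monoFun_apply, smul_eq_mul, Fin.is_lt, dite_true,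
    Fin.eta, mul_assoc]

theorem sum_mem_poly {w : ℕ} (p : ℕ → ℂ) :
    (fun X Y : ℂ => ∑ j ∈ Finset.range (w + 1), p j * X ^ j * Y ^ (w - j)) ∈ poly ℂ w := by
  have : (fun X Y : ℂ => ∑ j ∈ Finset.range (w + 1), p j * X ^ j * Y ^ (w - j))
      = ∑ j ∈ Finset.range (w + 1), p j • monoFun w j := by
    funext X Y
    simp [monoFun, mul_assoc]
  rw [this]
  refine Submodule.sum_mem _ fun j hj => Submodule.smul_mem _ _ (monoFun_mem_poly ?_)
  exact Nat.lt_succ_iff.mp (Finset.mem_range.mp hj)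

theorem poly_int_subset_complex {w : ℕ} {P : ℂ → ℂ → ℂ} (hP : P ∈ poly ℤ w) : P ∈ poly ℂ w := by
  induction hP using Submodule.span_induction with
  | mem x hx => exact Submodule.subset_span hx
  | zero => exact Submodule.zero_mem _
  | add x y _ _ hx hy => exact Submodule.add_mem _ hx hy
  | smul r x _ hx =>
    have : r • x = (r : ℂ) • x := by
      funext X Y
      simp
    rw [this]
    exact Submodule.smul_mem _ _ hx

theorem poly_fg (w : ℕ) : (poly ℤ w).FG :=
  Submodule.fg_span (Set.finite_range _)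

end Fermat.Agent.H21
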