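import Mathlib
import Fermat.Agent.H21.HomPoly

/-!
# Cocycle attached to an Eichler integral: definitions (helper21, for S22)
-/

set_option autoImplicit false

noncomputable section

namespace Fermat.Agent.H21

open UpperHalfPlane Matrix.SpecialLinearGroup
open scoped MatrixGroups

/-- The cocycle attached to an Eichler integral `I`. -/
def coc (I : ℍ → ℂ → ℂ → ℂ) (γ : SL(2, ℤ)) : ℂ → ℂ → ℂ :=
  act (mapGL ℝ γ) I UpperHalfPlane.I - I UpperHalfPlane.I

/-- The (right) cocycle condition on a subgroup `Γ` of `SL(2, ℤ)`. -/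
def IsCoc (Γ : Subgroup SL(2, ℤ)) (c : SL(2, ℤ) → ℂ → ℂ → ℂ) : Prop :=
  ∀ γ ∈ Γ, ∀ δ ∈ Γ, c (γ * δ) = subst (mapGL ℝ δ) (c γ) + c δ

end Fermat.Agent.H21
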