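import Mathlib
import Fermat.Agent.H21.CocDefs

/-!
# Cocycle attached to an Eichler integral: lemmas (helper21, for S22)
-/

set_option autoImplicit false

noncomputable section

namespace Fermat.Agent.H21

open UpperHalfPlane Matrix.SpecialLinearGroup
open scoped MatrixGroups ModularForm

theorem det_mapGL_pos (γ : SL(2, ℤ)) : 0 < (mapGL ℝ γ : GL (Fin 2) ℝ).det.val := by
  simp

theorem hasEntriesIn_int_mapGL (γ : SL(2, ℤ)) : HasEntriesIn ℤ (mapGL ℝ γ) := by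
  intro i j
  refine ⟨γ i j, ?_⟩
  simp

theorem coc_zero (γ : SL(2, ℤ)) : coc 0 γ = 0 := by
  simp [coc, act]

theorem coc_add (I J : ℍ → ℂ → ℂ → ℂ) (γ : SL(2, ℤ)) : coc (I + J) γ = coc I γ + coc J γ := by
  simp only [coc, act_add, Pi.add_apply]
  abel

theorem coc_neg (I : ℍ → ℂ → ℂ → ℂ) (γ : SL(2, ℤ)) : coc (-I) γ = -coc I γ := by
  funext X Y
  simp only [coc, act, subst, Pi.sub_apply, Pi.neg_apply]
  ring

theorem act_eq_add_coc {w : ℕ} {f : ℍ → ℂ} {I : ℍ → ℂ → ℂ → ℂ} (hI : IsEI w f I)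
    (γ : SL(2, ℤ)) (hf : f ∣[(w : ℤ) + 2] (mapGL ℝ γ) = f) :
    act (mapGL ℝ γ) I = fun τ => I τ + coc I γ := by
  have h1 : IsEI w f (act (mapGL ℝ γ) I) := by
    have := hI.slash (det_mapGL_pos γ)
    rwa [hf] at this
  obtain ⟨K, hK⟩ := hI.exists_const h1
  funext τ
  have hK0 : K = coc I γ := by
    have := hK UpperHalfPlane.I
    simp only [coc]
    rw [this]
    abel
  rw [hK τ, hK0]

theorem isCoc_coc (Γ : Subgroup SL(2, ℤ)) {w : ℕ} {f : ℍ → ℂ} {I : ℍ → ℂ → ℂ → ℂ}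
    (hI : IsEI w f I) (hf : ∀ γ ∈ Γ, f ∣[(w : ℤ) + 2] (mapGL ℝ γ) = f) : IsCoc Γ (coc I) := by
  intro γ hγ δ hδ
  have h1 := act_eq_add_coc hI γ (hf γ hγ)
  have h2 := act_eq_add_coc hI δ (hf δ hδ)
  have h3 := act_eq_add_coc hI (γ * δ) (hf _ (Γ.mul_mem hγ hδ))
  have h4 : act (mapGL ℝ (γ * δ)) I = act (mapGL ℝ δ) (act (mapGL ℝ γ) I) := by
    rw [map_mul, act_mul]
  rw [h3, h1] at h4
  have h5 := congrFun h4 UpperHalfPlane.I
  simp only [act_apply] at h5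
  have h6 := congrFun h2 (UpperHalfPlane.I)
  simp only [act_apply] at h6
  rw [subst_add, h6] at h5
  have : coc I (γ * δ) = I UpperHalfPlane.I + coc I δ + subst (mapGL ℝ δ) (coc I γ)
      - I UpperHalfPlane.I := by
    rw [← h5]
    abel
  rw [this]
  abel

theorem coc_mem_poly {w : ℕ} {I : ℍ → ℂ → ℂ → ℂ} (hP : ∀ τ, I τ ∈ poly ℂ w) (γ : SL(2, ℤ)) :
    coc I γ ∈ poly ℂ w := by
  refine Submodule.sub_mem _ ?_ (hP _)
  exact subst_mem_poly (hasEntriesIn_complex _) (hP _)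

theorem act_mem_poly {w : ℕ} {I : ℍ → ℂ → ℂ → ℂ} (hP : ∀ τ, I τ ∈ poly ℂ w)
    (g : GL (Fin 2) ℝ) (τ : ℍ) : act g I τ ∈ poly ℂ w :=
  subst_mem_poly (hasEntriesIn_complex _) (hP _)

theorem sum_act_mem_poly {w : ℕ} {I : ℍ → ℂ → ℂ → ℂ} (hP : ∀ τ, I τ ∈ poly ℂ w)
    {X : Type*} [Fintype X] (α : X → GL (Fin 2) ℝ) (τ : ℍ) :
    (∑ x, act (α x) I) τ ∈ poly ℂ w := by
  rw [Finset.sum_apply]
  exact Submodule.sum_mem _ fun x _ => act_mem_poly hP (α x) τ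

/-- The cocycle of a Hecke translate of an Eichler integral. -/
theorem coc_hecke {w : ℕ} {Γ : Subgroup SL(2, ℤ)} {X : Type} [Fintype X]
    (α : X → GL (Fin 2) ℝ) (hα : ∀ x, 0 < (α x).det.val)
    {f : ℍ → ℂ} {I : ℍ → ℂ → ℂ → ℂ} (hI : IsEI w f I)
    (hf : ∀ γ ∈ Γ, f ∣[(w : ℤ) + 2] (mapGL ℝ γ) = f)
    (γ : SL(2, ℤ)) (σ : Equiv.Perm X) (κ : X → SL(2, ℤ)) (hκ : ∀ x, κ x ∈ Γ)
    (hrw : ∀ x, α x * mapGL ℝ γ = mapGL ℝ (κ x) * α (σ x)) :
    coc (∑ x, act (α x) I) γ = ∑ x, subst (α (σ x)) (coc I (κ x)) := by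
  have hα' := hα
  have key : act (mapGL ℝ γ) (∑ x, act (α x) I)
      = (∑ x, act (α x) I) + fun _ => ∑ x, subst (α (σ x)) (coc I (κ x)) := by
    rw [act_sum]
    have h1 : ∀ x, act (mapGL ℝ γ) (act (α x) I)
        = act (α (σ x)) I + fun _ => subst (α (σ x)) (coc I (κ x)) := by
      intro x
      rw [← act_mul, hrw x, act_mul, act_eq_add_coc hI (κ x) (hf _ (hκ x))]
      funext τ
      simp only [act_apply, Pi.add_apply, subst_add]
    rw [Finset.sum_congr rfl fun x _ => h1 x, Finset.sum_add_distrib,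
      Equiv.sum_comp σ (fun x => act (α x) I)]
    congr 1
    funext τ
    simp only [Finset.sum_apply]
  simp only [coc, key, Pi.add_apply]
  abel

end Fermat.Agent.H21
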