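import Mathlib
import Fermat.Agent.H21.Cocycle
import Fermat.Prelude.Def_CuspForm_HeckeAlgebra
import Fermat.Agent.H36.S22_Lattice

/-!
# Assembly of the finiteness of the Hecke algebra from the pieces (helper21, for S22)
-/

set_option autoImplicit false

noncomputable section

namespace Fermat.Agent.H21

open UpperHalfPlane CongruenceSubgroup Matrix.SpecialLinearGroup
open scoped MatrixGroups ModularForm Manifold

/-- The integral lattice of tuples of integral homogeneous polynomials. -/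
def lat (w m : ℕ) : Submodule ℤ (Fin m → ℂ → ℂ → ℂ) :=
  Submodule.pi Set.univ (fun _ => poly ℤ w)

theorem mem_lat {w m : ℕ} {u : Fin m → ℂ → ℂ → ℂ} : u ∈ lat w m ↔ ∀ j, u j ∈ poly ℤ w := by
  simp [lat, Submodule.mem_pi]

theorem lat_fg (w m : ℕ) : (lat w m).FG :=
  Submodule.fg_pi (fun _ => poly_fg w)

theorem single_mem_span_lat (w m : ℕ) (j : Fin m) {P : ℂ → ℂ → ℂ} (hP : P ∈ poly ℂ w) :
    (Pi.single j P : Fin m → ℂ → ℂ → ℂ) ∈ Submodule.span ℂ (lat w m : Set (Fin m → ℂ → ℂ → ℂ)) := by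
  have h : poly ℂ w ≤ Submodule.comap (LinearMap.single ℂ (fun _ : Fin m => ℂ → ℂ → ℂ) j)
      (Submodule.span ℂ (lat w m : Set (Fin m → ℂ → ℂ → ℂ))) := by
    rw [poly, Submodule.span_le]
    rintro _ ⟨i, rfl⟩
    simp only [SetLike.mem_coe, Submodule.mem_comap, LinearMap.coe_single]
    apply Submodule.subset_span
    rw [SetLike.mem_coe, mem_lat]
    intro j'
    by_cases hj : j' = j
    · subst hj
      rw [Pi.single_eq_same]
      exact monoFun_mem_poly (Nat.lt_succ_iff.mp i.2)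
    · rw [Pi.single_eq_of_ne hj]
      exact Submodule.zero_mem _
  exact h hP

theorem mem_span_lat {w m : ℕ} {u : Fin m → ℂ → ℂ → ℂ} (hu : ∀ j, u j ∈ poly ℂ w) :
    u ∈ Submodule.span ℂ (lat w m : Set (Fin m → ℂ → ℂ → ℂ)) := by
  have : u = ∑ j, Pi.single j (u j) := by
    funext j
    simp [Finset.sum_apply, Pi.single_apply]
  rw [this]
  exact Submodule.sum_mem _ fun j _ => single_mem_span_lat w m j (hu j)

theorem slash_eq_of_mem_Gamma0 {N : ℕ} {k : ℤ} (f : CuspForm (Gamma0 N) k) (γ : SL(2, ℤ))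
    (hγ : γ ∈ Gamma0 N) : (⇑f) ∣[k] (mapGL ℝ γ) = ⇑f :=
  SlashInvariantFormClass.slash_action_eq f _ (Subgroup.mem_map_of_mem (mapGL ℝ) hγ)

/-- The relation between cusp forms and the values of Eichler cocycles on generators. -/
def Rel (N w m : ℕ) (gens : Fin m → SL(2, ℤ)) (f : CuspForm (Gamma0 N) ((w : ℤ) + 2))
    (u : Fin m → ℂ → ℂ → ℂ) : Prop :=
  ∃ I : ℍ → ℂ → ℂ → ℂ, IsEI w f I ∧ (∀ τ, I τ ∈ poly ℂ w) ∧ u = fun j => coc I (gens j)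

/-- The statement of the Fox-calculus lemma (HF-A2) for `Γ₀(N)`. -/
def FoxStatement (N w m : ℕ) (gens : Fin m → SL(2, ℤ)) : Prop :=
  ∀ γ ∈ Gamma0 N, ∃ E : (Fin m → ℂ → ℂ → ℂ) →ₗ[ℂ] (ℂ → ℂ → ℂ),
    (∀ c, IsCoc (Gamma0 N) c → c γ = E (fun j => c (gens j))) ∧
    (∀ u : Fin m → ℂ → ℂ → ℂ, (∀ j, u j ∈ poly ℤ w) → E u ∈ poly ℤ w)

theorem exists_S_of_rewriting {N w m : ℕ} (gens : Fin m → SL(2, ℤ))
    (hgensmem : ∀ j, gens j ∈ Gamma0 N) (hfox : FoxStatement N w m gens)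
    {X : Type} [Fintype X] (α : X → GL (Fin 2) ℝ) (hαdet : ∀ x, 0 < (α x).det.val)
    (hαint : ∀ x, HasEntriesIn ℤ (α x))
    (hrw : ∀ γ ∈ Gamma0 N, ∃ (σ : Equiv.Perm X) (κ : X → SL(2, ℤ)),
        (∀ x, κ x ∈ Gamma0 N) ∧ ∀ x, α x * mapGL ℝ γ = mapGL ℝ (κ x) * α (σ x))
    (t : Module.End ℂ (CuspForm (Gamma0 N) ((w : ℤ) + 2)))
    (ht : ∀ f : CuspForm (Gamma0 N) ((w : ℤ) + 2), ⇑(t f) = ∑ x, (⇑f) ∣[(w : ℤ) + 2] α x) :
    ∃ S : Module.End ℂ (Fin m → ℂ → ℂ → ℂ), (∀ u ∈ lat w m, S u ∈ lat w m) ∧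
      ∀ f u, Rel N w m gens f u → Rel N w m gens (t f) (S u) := by
  classical
  choose σ κ hκ hrw' using fun j : Fin m => hrw (gens j) (hgensmem j)
  choose E hE1 hE2 using fun (j : Fin m) (x : X) => hfox (κ j x) (hκ j x)
  refine ⟨LinearMap.pi fun j => ∑ x, (substL (α (σ j x))).comp (E j x), ?_, ?_⟩
  · intro u hu
    rw [mem_lat] at hu ⊢
    intro j
    simp only [LinearMap.pi_apply, LinearMap.coe_sum, Finset.sum_apply, LinearMap.comp_apply,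
      substL_apply]
    exact Submodule.sum_mem _ fun x _ => subst_mem_poly (hαint _) (hE2 j x u hu)
  · rintro f u ⟨I, hI, hP, rfl⟩
    have hf : ∀ γ ∈ Gamma0 N, (⇑f) ∣[(w : ℤ) + 2] (mapGL ℝ γ) = ⇑f :=
      fun γ hγ => slash_eq_of_mem_Gamma0 f γ hγ
    refine ⟨∑ x, act (α x) I, ?_, fun τ => sum_act_mem_poly hP α τ, ?_⟩
    · rw [ht f]
      exact IsEI.sum _ fun x _ => hI.slash (hαdet x)
    · funext j
      simp only [LinearMap.pi_apply, LinearMap.coe_sum, Finset.sum_apply, LinearMap.comp_apply,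
        substL_apply]
      rw [coc_hecke α hαdet hI hf (gens j) (σ j) (κ j) (hκ j) (hrw' j)]
      refine Finset.sum_congr rfl fun x _ => ?_
      rw [hE1 j x (coc I) (isCoc_coc (Gamma0 N) hI hf)]

set_option maxHeartbeats 1600000 in
/-- The finiteness of the Hecke algebra in weight `w + 2`, from the pieces. -/
theorem heckeAlgebra_finite_of_pieces (N : ℕ) [NeZero N] (w : ℕ) (S : Set ℕ)
    (hE1 : ∀ f : ℍ → ℂ, MDiff f → ∃ I : ℍ → ℂ → ℂ → ℂ, IsEI w f I ∧ ∀ τ, I τ ∈ poly ℂ w)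
    (hE4 : ∀ (f : CuspForm (Gamma0 N) ((w : ℤ) + 2)) (I : ℍ → ℂ → ℂ → ℂ), IsEI w f I →
      (∀ τ, I τ ∈ poly ℂ w) → (∀ γ ∈ Gamma0 N, act (mapGL ℝ γ) I = I) → f = 0)
    (m : ℕ) (gens : Fin m → SL(2, ℤ)) (hgensmem : ∀ j, gens j ∈ Gamma0 N)
    (hfox : FoxStatement N w m gens)
    (hT : ∀ p : ℕ, p.Prime → ¬ p ∣ N → ∃ (X : Type) (_ : Fintype X) (α : X → GL (Fin 2) ℝ),
      (∀ x, 0 < (α x).det.val) ∧ (∀ x, HasEntriesIn ℤ (α x)) ∧
      (∀ (k : ℤ) (f : ℍ → ℂ), ModularForm.heckeT k p f = ∑ x, f ∣[k] α x) ∧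
      ∀ γ ∈ Gamma0 N, ∃ (σ : Equiv.Perm X) (κ : X → SL(2, ℤ)),
        (∀ x, κ x ∈ Gamma0 N) ∧ ∀ x, α x * mapGL ℝ γ = mapGL ℝ (κ x) * α (σ x))
    (hU : ∀ p : ℕ, p ∣ N → ∃ (X : Type) (_ : Fintype X) (α : X → GL (Fin 2) ℝ),
      (∀ x, 0 < (α x).det.val) ∧ (∀ x, HasEntriesIn ℤ (α x)) ∧
      (∀ (k : ℤ) (f : ℍ → ℂ), ModularForm.heckeU k p f = ∑ x, f ∣[k] α x) ∧
      ∀ γ ∈ Gamma0 N, ∃ (σ : Equiv.Perm X) (κ : X → SL(2, ℤ)),
        (∀ x, κ x ∈ Gamma0 N) ∧ ∀ x, α x * mapGL ℝ γ = mapGL ℝ (κ x) * α (σ x)) :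
    Module.Finite ℤ (CuspForm.heckeAlgebra N ((w : ℤ) + 2) S) := by
  classical
  -- every generator is "Hecke-like"
  have hgen : ∀ t ∈ CuspForm.heckeGenerators N ((w : ℤ) + 2) S,
      ∃ S' : Module.End ℂ (Fin m → ℂ → ℂ → ℂ), (∀ u ∈ lat w m, S' u ∈ lat w m) ∧
        ∀ f u, Rel N w m gens f u → Rel N w m gens (t f) (S' u) := by
    rintro t (⟨ℓ, hℓ, hℓN, -, rfl⟩ | ⟨q, hqN, -, -, rfl⟩)
    · obtain ⟨X, hX, α, hαdet, hαint, hsum, hrw⟩ := hT ℓ hℓ hℓN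
      exact exists_S_of_rewriting gens hgensmem hfox α hαdet hαint hrw _ fun f => by
        rw [CuspForm.coe_heckeTLin_apply, hsum]
    · obtain ⟨X, hX, α, hαdet, hαint, hsum, hrw⟩ := hU q hqN
      exact exists_S_of_rewriting gens hgensmem hfox α hαdet hαint hrw _ fun f => by
        rw [CuspForm.coe_heckeULin_apply, hsum]
  choose! S' hS'1 hS'2 using hgen
  have key := Fermat.Agent.H36.adjoin_finite_of_lattice (lat w m) (lat_fg w m)
    (fun i : CuspForm.heckeGenerators N ((w : ℤ) + 2) S => (i : Module.End ℂ _))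
    (fun i => S' i) (fun i u hu => hS'1 i i.2 u hu) (Rel N w m gens)
    ?_ ?_ ?_ ?_ (fun i f u h => hS'2 i i.2 f u h) ?_ ?_
  · have hrange : Set.range (fun i : CuspForm.heckeGenerators N ((w : ℤ) + 2) S =>
        (i : Module.End ℂ (CuspForm (Gamma0 N) ((w : ℤ) + 2))))
        = CuspForm.heckeGenerators N ((w : ℤ) + 2) S := Subtype.range_coe
    rw [hrange] at key
    exact key
  · -- existence
    intro f
    obtain ⟨I, hI, hP⟩ := hE1 f (CuspFormClass.holo f)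
    exact ⟨_, I, hI, hP, rfl⟩
  · -- zero
    refine ⟨0, ?_, fun τ => Submodule.zero_mem _, ?_⟩
    · have : (⇑(0 : CuspForm (Gamma0 N) ((w : ℤ) + 2)) : ℍ → ℂ) = 0 := rfl
      rw [this]
      exact IsEI.zero w
    · funext j
      simp [coc_zero]
  · -- add
    rintro f f' u u' ⟨I, hI, hP, rfl⟩ ⟨I', hI', hP', rfl⟩
    refine ⟨I + I', ?_, fun τ => Submodule.add_mem _ (hP τ) (hP' τ), ?_⟩
    · have : (⇑(f + f') : ℍ → ℂ) = ⇑f + ⇑f' := rfl
      rw [this]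
      exact hI.add hI'
    · funext j
      simp [coc_add]
  · -- neg
    rintro f u ⟨I, hI, hP, rfl⟩
    refine ⟨-I, ?_, fun τ => Submodule.neg_mem _ (hP τ), ?_⟩
    · have : (⇑(-f) : ℍ → ℂ) = -⇑f := rfl
      rw [this]
      exact hI.neg
    · funext j
      simp [coc_neg]
  · -- injectivity
    rintro f ⟨I, hI, hP, h0⟩
    have hf : ∀ γ ∈ Gamma0 N, (⇑f) ∣[(w : ℤ) + 2] (mapGL ℝ γ) = ⇑f :=
      fun γ hγ => slash_eq_of_mem_Gamma0 f γ hγ
    refine hE4 f I hI hP fun γ hγ => ?_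
    obtain ⟨E, hE, -⟩ := hfox γ hγ
    have h1 : coc I γ = 0 := by
      rw [hE (coc I) (isCoc_coc (Gamma0 N) hI hf), ← h0, map_zero]
    rw [act_eq_add_coc hI γ (hf γ hγ), h1]
    funext τ
    simp
  · -- span
    rintro f u ⟨I, hI, hP, rfl⟩
    exact mem_span_lat fun j => coc_mem_poly hP (gens j)

end Fermat.Agent.H21
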