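import Mathlib
import Fermat.Agent.H21.Cocycle
import Fermat.Agent.H98.S22_Bol
import Fermat.Agent.H41.S22_HalfStrip

/-!
# Injectivity of the Eichler cocycle map: glue (helper21, for S22)

`eq_zero_core` derives `f = 0` for a cusp form with a `Γ₀(N)`-invariant Eichler integral from
black boxes (coefficient functions, exponential decay of slashes, constancy of bounded invariant
holomorphic functions, the diagonal transformation rule) which are proved in other files.
-/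

set_option autoImplicit false

noncomputable section

namespace Fermat.Agent.H21

open UpperHalfPlane CongruenceSubgroup Matrix.SpecialLinearGroup
open scoped MatrixGroups ModularForm Manifold

/-- polynomial times exponential decay is bounded and tends to zero: a crude explicit bound -/
theorem pow_mul_exp_le_exp (a : ℝ) (n : ℕ) (ha : 0 < a) (y : ℝ) (hy : 0 ≤ y) :
    (1 + y) ^ n * Real.exp (-a * y) ≤
      ((n.factorial : ℝ) * (2 / a) ^ n * Real.exp (a / 2 * (1 + 0))) * Real.exp (-(a / 2) * y) := by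
  have := Fermat.Agent.H41.pow_mul_exp_neg_le a 0 n ha y (by linarith)
  simpa [mul_comm] using this

theorem slash_mapGL_apply (k : ℤ) (f : ℍ → ℂ) (γ : SL(2, ℤ)) (τ : ℍ) :
    (f ∣[k] (mapGL ℝ γ)) τ = f (γ • τ) * denom (mapGL ℝ γ) τ ^ (-k) := by
  rw [slash_apply_of_det_pos (det_mapGL_pos γ)]
  have : ((mapGL ℝ γ : GL (Fin 2) ℝ).det.val : ℂ) = 1 := by simp
  rw [this, one_zpow, mul_one]
  rfl

theorem eq_zero_core (N : ℕ) [NeZero N] (w : ℕ)
    (f : CuspForm (Gamma0 N) ((w : ℤ) + 2)) (I : ℍ → ℂ → ℂ → ℂ)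
    (hinv : ∀ γ ∈ Gamma0 N, act (mapGL ℝ γ) I = I)
    (hgrowth : ∀ γ : SL(2, ℤ), ∃ C B : ℝ, ∀ τ : ℍ, B ≤ τ.im →
      ‖act (mapGL ℝ γ) I τ (τ : ℂ) 1‖ ≤ C * (1 + τ.im) ^ w)
    (c : ℕ → ℂ → ℂ)
    (hc : ∀ (j : ℕ) (z : ℂ), 0 < z.im →
        HasDerivAt (c j) (f (ofComplex z) * ((w.choose j : ℂ) * (-z) ^ (w - j))) z)
    (hcI : ∀ (τ : ℍ) (X Y : ℂ),
        I τ X Y = ∑ j ∈ Finset.range (w + 1), c j (τ : ℂ) * X ^ j * Y ^ (w - j))
    (hdecay : ∀ γ : SL(2, ℤ), ∃ a : ℝ, 0 < a ∧ ∃ C B : ℝ, ∀ τ : ℍ, B ≤ τ.im →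
      ‖((⇑f) ∣[(w : ℤ) + 2] (mapGL ℝ γ)) τ‖ ≤ C * Real.exp (-a * τ.im))
    (hconst : ∀ H : ℍ → ℂ, MDiff H → (∀ γ ∈ Gamma0 N, ∀ τ : ℍ, H (γ • τ) = H τ) →
      (∀ γ : SL(2, ℤ), IsBoundedAtImInfty (fun τ : ℍ => H (γ • τ))) → ∃ c : ℂ, ∀ τ, H τ = c)
    (hdiag : ∀ (g : GL (Fin 2) ℝ), 0 < g.det.val → ∀ τ : ℍ,
      act g I τ (τ : ℂ) 1 = denom g τ ^ w * I (g • τ) ((g • τ : ℍ) : ℂ) 1) : f = 0 := by
  classical
  -- the scalar Eichler integral
  set G : ℍ → ℂ := fun τ => I τ (τ : ℂ) 1 with hGdef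
  have hGsum : ∀ τ : ℍ, G τ = ∑ j ∈ Finset.range (w + 1), c j (τ : ℂ) * (τ : ℂ) ^ j := by
    intro τ
    simp only [hGdef, hcI τ (τ : ℂ) 1, one_pow, mul_one]
  have hGmd : MDiff G := by
    rw [UpperHalfPlane.mdifferentiable_iff]
    intro z hz
    have hd : DifferentiableAt ℂ (fun z : ℂ => ∑ j ∈ Finset.range (w + 1), c j z * z ^ j) z := by
      refine DifferentiableAt.fun_sum fun j _ => ?_
      exact ((hc j z hz).differentiableAt).mul (differentiableAt_pow j)
    refine (hd.congr_of_eventuallyEq ?_).differentiableWithinAt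
    filter_upwards [isOpen_upperHalfPlaneSet.mem_nhds hz] with z' hz'
    simp only [Function.comp_apply, hGsum, ofComplex_apply_of_im_pos hz']
  have hfmd : MDiff (⇑f : ℍ → ℂ) := CuspFormClass.holo f
  -- the value of `act γ I` on the diagonal
  have hA : ∀ (γ : SL(2, ℤ)) (τ : ℍ),
      act (mapGL ℝ γ) I τ (τ : ℂ) 1 = denom (mapGL ℝ γ) τ ^ w * G (γ • τ) := fun γ τ =>
    hdiag (mapGL ℝ γ) (det_mapGL_pos γ) τ
  -- weight `-w` invariance of `G`
  have hGinv : ∀ γ ∈ Gamma0 N, ∀ τ : ℍ, G τ = denom (mapGL ℝ γ) τ ^ w * G (γ • τ) := by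
    intro γ hγ τ
    rw [← hA γ τ, hinv γ hγ]
  -- weight `w + 2` invariance of `f`
  have hfinv : ∀ γ ∈ Gamma0 N, ∀ τ : ℍ,
      f τ = f (γ • τ) * denom (mapGL ℝ γ) τ ^ (-((w : ℤ) + 2)) := by
    intro γ hγ τ
    have h1 : ((⇑f) ∣[(w : ℤ) + 2] (mapGL ℝ γ)) = ⇑f :=
      SlashInvariantFormClass.slash_action_eq f _ (Subgroup.mem_map_of_mem (mapGL ℝ) hγ)
    have h2 := congrFun h1 τ
    rw [slash_mapGL_apply] at h2
    exact h2.symm
  -- conclusion from `G = const`
  have hfinal : ∀ c₀ : ℂ, (∀ τ, G τ = c₀) → (w = 0 ∨ c₀ = 0) → f = 0 := by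
    intro c₀ hG0 hw
    set c' : ℕ → ℂ → ℂ := fun j z => c j z - (if j = 0 then c₀ else 0) with hc'
    have hbol := Fermat.Agent.H98.bol_local w (fun z => f (ofComplex z)) c'
      {z : ℂ | 0 < z.im} isOpen_upperHalfPlaneSet ?_ ?_
    · ext τ
      have := hbol (τ : ℂ) τ.2
      simpa using this
    · intro j z hz
      have := (hc j z hz).sub_const (if j = 0 then c₀ else 0)
      exact this
    · intro z hz
      have h1 := hGsum ⟨z, hz⟩
      rw [hG0] at h1
      simp only [hc', sub_mul, Finset.sum_sub_distrib]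
      have h2 : ∑ j ∈ Finset.range (w + 1), (if j = 0 then c₀ else 0) * z ^ j = c₀ := by
        rw [Finset.sum_eq_single 0]
        · simp
        · intro j _ hj
          simp [hj]
        · intro h
          simp at h
      rw [h2]
      have h3 : (∑ j ∈ Finset.range (w + 1), c j z * z ^ j) = c₀ := by
        rw [h1]
      rw [h3, sub_self]
  rcases Nat.eq_zero_or_pos w with hw | hw
  · -- weight 2: `G` itself is invariant and bounded at the cusps
    subst hw
    obtain ⟨c₀, hc₀⟩ := hconst G hGmd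
      (fun γ hγ τ => by
        have := hGinv γ hγ τ
        simpa using this.symm)
      (fun γ => by
        obtain ⟨C, B, hCB⟩ := hgrowth γ
        rw [isBoundedAtImInfty_iff]
        refine ⟨C, B, fun τ hτ => ?_⟩
        have := hCB τ hτ
        rw [hA γ τ] at this
        simpa using this)
    exact hfinal c₀ hc₀ (Or.inl rfl)
  · -- higher weight
    set H : ℍ → ℂ := fun τ => G τ ^ (w + 2) * f τ ^ w with hHdef
    have hHmd : MDiff H := (hGmd.pow (w + 2)).mul (hfmd.pow w)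
    -- value of `H ∘ γ`
    have hHγ : ∀ (γ : SL(2, ℤ)) (τ : ℍ), H (γ • τ) =
        (act (mapGL ℝ γ) I τ (τ : ℂ) 1) ^ (w + 2) *
          (((⇑f) ∣[(w : ℤ) + 2] (mapGL ℝ γ)) τ) ^ w := by
      intro γ τ
      have hden : denom (mapGL ℝ γ) τ ≠ 0 := denom_ne_zero _ _
      rw [hA γ τ, slash_mapGL_apply]
      simp only [hHdef]
      have e2 : (-((w : ℤ) + 2)) = -((w + 2 : ℕ) : ℤ) := by push_cast; ring
      rw [e2, zpow_neg, zpow_natCast, mul_pow, mul_pow, ← pow_mul, inv_pow, ← pow_mul,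
        mul_comm (w + 2) w]
      have hD : denom (mapGL ℝ γ) τ ^ (w * (w + 2)) ≠ 0 := pow_ne_zero _ hden
      field_simp
    have hHinv : ∀ γ ∈ Gamma0 N, ∀ τ : ℍ, H (γ • τ) = H τ := by
      intro γ hγ τ
      rw [hHγ γ τ, hinv γ hγ]
      have h1 : ((⇑f) ∣[(w : ℤ) + 2] (mapGL ℝ γ)) = ⇑f :=
        SlashInvariantFormClass.slash_action_eq f _ (Subgroup.mem_map_of_mem (mapGL ℝ) hγ)
      rw [h1]
    -- decay of `H ∘ γ`
    have hHdec : ∀ γ : SL(2, ℤ), ∃ a : ℝ, 0 < a ∧ ∃ K B : ℝ, ∀ τ : ℍ, B ≤ τ.im →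
        ‖H (γ • τ)‖ ≤ K * Real.exp (-a * τ.im) := by
      intro γ
      obtain ⟨C, B, hCB⟩ := hgrowth γ
      obtain ⟨a, ha, C', B', hCB'⟩ := hdecay γ
      have haw : 0 < a * w := mul_pos ha (by exact_mod_cast hw)
      refine ⟨a * w / 2, by positivity, |C| ^ (w + 2) * |C'| ^ w *
        ((((w * (w + 2)).factorial : ℝ) * (2 / (a * w)) ^ (w * (w + 2)) *
          Real.exp (a * w / 2 * (1 + 0)))), max (max B B') 0, fun τ hτ => ?_⟩
      have hτB : B ≤ τ.im := le_trans (le_trans (le_max_left _ _) (le_max_left _ _)) hτ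
      have hτB' : B' ≤ τ.im := le_trans (le_trans (le_max_right _ _) (le_max_left _ _)) hτ
      have hτ0 : 0 ≤ τ.im := le_trans (le_max_right _ _) hτ
      rw [hHγ γ τ, norm_mul, norm_pow, norm_pow]
      have h1 : ‖act (mapGL ℝ γ) I τ (τ : ℂ) 1‖ ≤ |C| * (1 + τ.im) ^ w :=
        (hCB τ hτB).trans (mul_le_mul_of_nonneg_right (le_abs_self C) (by positivity))
      have h2 : ‖((⇑f) ∣[(w : ℤ) + 2] (mapGL ℝ γ)) τ‖ ≤ |C'| * Real.exp (-a * τ.im) :=
        (hCB' τ hτB').trans (mul_le_mul_of_nonneg_right (le_abs_self C') (Real.exp_pos _).le)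
      have h3 : ‖act (mapGL ℝ γ) I τ (τ : ℂ) 1‖ ^ (w + 2) ≤ (|C| * (1 + τ.im) ^ w) ^ (w + 2) :=
        pow_le_pow_left₀ (norm_nonneg _) h1 _
      have h4 : ‖((⇑f) ∣[(w : ℤ) + 2] (mapGL ℝ γ)) τ‖ ^ w ≤ (|C'| * Real.exp (-a * τ.im)) ^ w :=
        pow_le_pow_left₀ (norm_nonneg _) h2 _
      have h5 := pow_mul_exp_le_exp (a * w) (w * (w + 2)) haw τ.im hτ0
      calc ‖act (mapGL ℝ γ) I τ (τ : ℂ) 1‖ ^ (w + 2) *
            ‖((⇑f) ∣[(w : ℤ) + 2] (mapGL ℝ γ)) τ‖ ^ w
          ≤ (|C| * (1 + τ.im) ^ w) ^ (w + 2) * (|C'| * Real.exp (-a * τ.im)) ^ w :=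
            mul_le_mul h3 h4 (by positivity) (by positivity)
        _ = |C| ^ (w + 2) * |C'| ^ w *
              ((1 + τ.im) ^ (w * (w + 2)) * Real.exp (-(a * w) * τ.im)) := by
            rw [mul_pow, mul_pow, ← pow_mul, ← Real.exp_nat_mul]
            have : (w : ℝ) * (-a * τ.im) = -(a * w) * τ.im := by ring
            rw [this]
            ring
        _ ≤ |C| ^ (w + 2) * |C'| ^ w *
              ((((w * (w + 2)).factorial : ℝ) * (2 / (a * w)) ^ (w * (w + 2)) *
                Real.exp (a * w / 2 * (1 + 0))) * Real.exp (-(a * w / 2) * τ.im)) :=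
            mul_le_mul_of_nonneg_left h5 (by positivity)
        _ = _ := by ring
    obtain ⟨c₀, hc₀⟩ := hconst H hHmd hHinv (fun γ => by
      obtain ⟨a, ha, K, B, hKB⟩ := hHdec γ
      rw [isBoundedAtImInfty_iff]
      refine ⟨|K|, max B 0, fun τ hτ => ?_⟩
      have h1 := hKB τ (le_trans (le_max_left _ _) hτ)
      have h0 : 0 ≤ τ.im := le_trans (le_max_right _ _) hτ
      refine h1.trans ?_
      calc K * Real.exp (-a * τ.im) ≤ |K| * Real.exp (-a * τ.im) :=
            mul_le_mul_of_nonneg_right (le_abs_self K) (Real.exp_pos _).le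
        _ ≤ |K| * 1 := by
            refine mul_le_mul_of_nonneg_left ?_ (abs_nonneg K)
            rw [Real.exp_le_one_iff]
            nlinarith
        _ = |K| := mul_one _)
    -- the constant is zero
    have hc0 : c₀ = 0 := by
      obtain ⟨a, ha, K, B, hKB⟩ := hHdec 1
      have hlim : Filter.Tendsto (fun y : ℝ => |K| * Real.exp (-a * y)) Filter.atTop (nhds 0) := by
        have h1 : Filter.Tendsto (fun y : ℝ => Real.exp (-a * y)) Filter.atTop (nhds 0) := by
          have := Real.tendsto_exp_atBot.comp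
            ((Filter.tendsto_id.const_mul_atTop_of_neg (show -a < 0 by linarith)))
          simpa [Function.comp_def] using this
        simpa using h1.const_mul |K|
      have hle : ∀ᶠ y : ℝ in Filter.atTop, ‖c₀‖ ≤ |K| * Real.exp (-a * y) := by
        filter_upwards [Filter.eventually_ge_atTop (max B 1)] with y hy
        have hy0 : 0 < y := lt_of_lt_of_le (by norm_num) (le_trans (le_max_right _ _) hy)
        have h1 := hKB ⟨⟨0, y⟩, hy0⟩ (le_trans (le_max_left _ _) hy)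
        rw [hc₀] at h1
        refine h1.trans ?_
        have : (⟨⟨0, y⟩, hy0⟩ : ℍ).im = y := rfl
        rw [this]
        exact mul_le_mul_of_nonneg_right (le_abs_self K) (Real.exp_pos _).le
      have := ge_of_tendsto hlim hle
      exact norm_le_zero_iff.mp this
    subst hc0
    -- `G ^ (w + 2) * f ^ w = 0`
    have hprod : (G ^ (w + 2)) * ((⇑f : ℍ → ℂ) ^ w) = 0 := by
      funext τ
      simpa [hHdef] using hc₀ τ
    rcases (UpperHalfPlane.mul_eq_zero_iff (hGmd.pow (w + 2)) (hfmd.pow w)).mp hprod with h | h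
    · refine hfinal 0 (fun τ => ?_) (Or.inr rfl)
      have := congrFun h τ
      simpa using this
    · ext τ
      have := congrFun h τ
      simp only [Pi.pow_apply, Pi.zero_apply] at this
      simpa using (pow_eq_zero_iff (by omega : w ≠ 0)).mp this

end Fermat.Agent.H21
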