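import Mathlib
import Fermat.Agent.H21.EqZeroCore
import Fermat.Agent.H2.S22_exists_isEI
import Fermat.Agent.H65.S22_exp_decay_slash
import Fermat.Agent.H73.S22_ConstOfInvariant
import Fermat.Agent.H55.S22_act_diag

/-!
# Injectivity of the Eichler cocycle map, given growth at the cusps (helper21, for S22)
-/

set_option autoImplicit false

noncomputable section

namespace Fermat.Agent.H21

open UpperHalfPlane CongruenceSubgroup Matrix.SpecialLinearGroup
open scoped MatrixGroups ModularForm Manifold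

theorem eq_zero_of_act_invariant_of_growth' (N : ℕ) [NeZero N] (w : ℕ)
    (f : CuspForm (Gamma0 N) ((w : ℤ) + 2)) (I : ℍ → ℂ → ℂ → ℂ)
    (hI : IsEI w f I) (hP : ∀ τ, I τ ∈ poly ℂ w)
    (hinv : ∀ γ ∈ Gamma0 N, act (mapGL ℝ γ) I = I)
    (hgrowth : ∀ γ : SL(2, ℤ), ∃ C B : ℝ, ∀ τ : ℍ, B ≤ τ.im →
      ‖act (mapGL ℝ γ) I τ (τ : ℂ) 1‖ ≤ C * (1 + τ.im) ^ w) : f = 0 := by
  obtain ⟨c, hc, hcI⟩ := Fermat.Agent.H2.isEI_exists_coeff w f (CuspFormClass.holo f) I hI hP
  exact eq_zero_core N w f I hinv hgrowth c hc hcI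
    (fun γ => Fermat.Agent.H65.exp_decay_slash N _ f γ)
    (fun H hH hHinv hHbdd => Fermat.Agent.H73.const_of_invariant_of_bounded N H hH hHinv hHbdd)
    (fun g hg τ => Fermat.Agent.H55.act_diag w I hP g hg τ)

end Fermat.Agent.H21
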