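import Mathlib
import Fermat.Agent.H21.Cocycle
import Fermat.Agent.H41.S22_HalfStrip
import Fermat.Agent.H2.S22_exists_isEI
import Fermat.Agent.H65.S22_exp_decay_slash
import Fermat.Agent.H1.S22_periodic_act_diag

/-!
# Polynomial growth of Eichler integrals at the cusps (helper21, for S22)
-/

set_option autoImplicit false

noncomputable section

namespace Fermat.Agent.H21

open UpperHalfPlane CongruenceSubgroup Matrix.SpecialLinearGroup
open scoped MatrixGroups ModularForm Manifold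

theorem growth_at_cusp' (N : ℕ) [NeZero N] (w : ℕ) (f : CuspForm (Gamma0 N) ((w : ℤ) + 2))
    (I : ℍ → ℂ → ℂ → ℂ) (hI : IsEI w f I) (hP : ∀ τ, I τ ∈ poly ℂ w)
    (hinv : ∀ γ ∈ Gamma0 N, act (mapGL ℝ γ) I = I) (γ : SL(2, ℤ)) :
    ∃ C B : ℝ, ∀ τ : ℍ, B ≤ τ.im →
      ‖act (mapGL ℝ γ) I τ (τ : ℂ) 1‖ ≤ C * (1 + τ.im) ^ w := by
  classical
  have hNpos : (0 : ℝ) < N := by exact_mod_cast Nat.pos_of_ne_zero (NeZero.ne N)
  -- the translated Eichler integral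
  have hIγ : IsEI w ((⇑f) ∣[(w : ℤ) + 2] (mapGL ℝ γ)) (act (mapGL ℝ γ) I) :=
    hI.slash (det_mapGL_pos γ)
  have hPγ : ∀ τ, act (mapGL ℝ γ) I τ ∈ poly ℂ w := fun τ => act_mem_poly hP _ τ
  have hfγ : MDiff ((⇑f) ∣[(w : ℤ) + 2] (mapGL ℝ γ)) :=
    (CuspFormClass.holo f).slash _ _
  obtain ⟨c, hc, hcI⟩ := Fermat.Agent.H2.isEI_exists_coeff w _ hfγ _ hIγ hPγ
  obtain ⟨a, ha, C₀, B₀, hdec⟩ := Fermat.Agent.H65.exp_decay_slash N _ f γ
  set B : ℝ := max B₀ 1 with hB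
  have hBpos : 0 < B := lt_of_lt_of_le one_pos (le_max_right _ _)
  -- bound each coefficient function on the half strip
  have hK : ∀ j : ℕ, ∃ K : ℝ, ∀ z : ℂ, B ≤ z.im → |z.re| ≤ (N : ℝ) → ‖c j z‖ ≤ K := by
    intro j
    refine Fermat.Agent.H41.bounded_on_halfstrip (c j)
      (fun z => ((⇑f) ∣[(w : ℤ) + 2] (mapGL ℝ γ)) (ofComplex z) *
        ((w.choose j : ℂ) * (-z) ^ (w - j))) B N a (|C₀| * (w.choose j : ℝ)) w hBpos ha
      (fun z hz => hc j z hz) ?_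
    intro z hz
    have hzpos : 0 < z.im := lt_of_lt_of_le hBpos hz
    have h1 : ‖((⇑f) ∣[(w : ℤ) + 2] (mapGL ℝ γ)) (ofComplex z)‖
        ≤ |C₀| * Real.exp (-a * z.im) := by
      have h := hdec (ofComplex z) (by
        rw [ofComplex_apply_of_im_pos hzpos]
        exact le_trans (le_max_left _ _) hz)
      rw [ofComplex_apply_of_im_pos hzpos] at h ⊢
      exact h.trans (mul_le_mul_of_nonneg_right (le_abs_self C₀) (Real.exp_pos _).le)
    have h2 : ‖((w.choose j : ℂ) * (-z) ^ (w - j))‖ ≤ (w.choose j : ℝ) * (1 + ‖z‖) ^ w := by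
      rw [norm_mul, norm_pow, norm_neg, Complex.norm_natCast]
      refine mul_le_mul_of_nonneg_left ?_ (Nat.cast_nonneg _)
      calc ‖z‖ ^ (w - j) ≤ (1 + ‖z‖) ^ (w - j) :=
            pow_le_pow_left₀ (norm_nonneg _) (by linarith) _
        _ ≤ (1 + ‖z‖) ^ w :=
            pow_le_pow_right₀ (by linarith [norm_nonneg z]) (Nat.sub_le _ _)
    rw [norm_mul]
    calc ‖((⇑f) ∣[(w : ℤ) + 2] (mapGL ℝ γ)) (ofComplex z)‖ * ‖((w.choose j : ℂ) * (-z) ^ (w - j))‖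
        ≤ (|C₀| * Real.exp (-a * z.im)) * ((w.choose j : ℝ) * (1 + ‖z‖) ^ w) :=
          mul_le_mul h1 h2 (norm_nonneg _) (by positivity)
      _ = |C₀| * (w.choose j : ℝ) * Real.exp (-a * z.im) * (1 + ‖z‖) ^ w := by ring
  choose K hK using hK
  -- bound on the half strip
  have hstrip : ∀ τ : ℍ, B ≤ τ.im → |τ.re| ≤ (N : ℝ) →
      ‖act (mapGL ℝ γ) I τ (τ : ℂ) 1‖ ≤
        (∑ j ∈ Finset.range (w + 1), |K j|) * (1 + N) ^ w * (1 + τ.im) ^ w := by
    intro τ hτ hre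
    have hτ0 : 0 ≤ τ.im := τ.im_pos.le
    rw [hcI τ (τ : ℂ) 1]
    have hnorm : ‖(τ : ℂ)‖ ≤ N + τ.im := by
      calc ‖(τ : ℂ)‖ ≤ |(τ : ℂ).re| + |(τ : ℂ).im| := Complex.norm_le_abs_re_add_abs_im _
        _ ≤ N + τ.im := by
          have h1 : |(τ : ℂ).im| = τ.im := abs_of_pos τ.im_pos
          have h2 : |(τ : ℂ).re| ≤ N := hre
          linarith
    have hpow : ∀ j ∈ Finset.range (w + 1), ‖(τ : ℂ)‖ ^ j ≤ ((1 + N) * (1 + τ.im)) ^ w := by
      intro j hj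
      have hj' : j ≤ w := Nat.lt_succ_iff.mp (Finset.mem_range.mp hj)
      have h1 : ‖(τ : ℂ)‖ ≤ (1 + N) * (1 + τ.im) := by nlinarith
      have h2 : (1 : ℝ) ≤ (1 + N) * (1 + τ.im) := by nlinarith
      calc ‖(τ : ℂ)‖ ^ j ≤ ((1 + N) * (1 + τ.im)) ^ j :=
            pow_le_pow_left₀ (norm_nonneg _) h1 _
        _ ≤ ((1 + N) * (1 + τ.im)) ^ w := pow_le_pow_right₀ h2 hj'
    calc ‖∑ j ∈ Finset.range (w + 1), c j (τ : ℂ) * (τ : ℂ) ^ j * 1 ^ (w - j)‖
        ≤ ∑ j ∈ Finset.range (w + 1), ‖c j (τ : ℂ) * (τ : ℂ) ^ j * 1 ^ (w - j)‖ :=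
          norm_sum_le _ _
      _ ≤ ∑ j ∈ Finset.range (w + 1), |K j| * ((1 + N) * (1 + τ.im)) ^ w := by
          refine Finset.sum_le_sum fun j hj => ?_
          rw [one_pow, mul_one, norm_mul, norm_pow]
          refine mul_le_mul ((hK j (τ : ℂ) hτ hre).trans (le_abs_self _)) (hpow j hj)
            (by positivity) (abs_nonneg _)
      _ = (∑ j ∈ Finset.range (w + 1), |K j|) * (1 + N) ^ w * (1 + τ.im) ^ w := by
          rw [← Finset.sum_mul, mul_pow, mul_assoc]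
  refine ⟨(∑ j ∈ Finset.range (w + 1), |K j|) * (1 + N) ^ w, B, fun τ hτ => ?_⟩
  -- shift into the strip
  set n : ℤ := -⌊τ.re / N⌋ with hn
  set τ' : ℍ := (ModularGroup.T ^ ((N : ℤ) * n)) • τ with hτ'
  have hper := Fermat.Agent.H1.periodic_act_diag N w I hinv γ τ n
  have him : τ'.im = τ.im := ModularGroup.im_T_zpow_smul τ _
  have hre : τ'.re = τ.re + ((N : ℤ) * n : ℤ) := ModularGroup.re_T_zpow_smul τ _
  have hre' : |τ'.re| ≤ (N : ℝ) := by
    rw [hre]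
    push_cast
    rw [hn]
    push_cast
    have h1 := Int.floor_le (τ.re / N)
    have h2 := Int.lt_floor_add_one (τ.re / N)
    have h3 : τ.re = τ.re / N * N := by field_simp
    rw [abs_le]
    constructor
    · have : (⌊τ.re / N⌋ : ℝ) * N ≤ τ.re / N * N := mul_le_mul_of_nonneg_right h1 hNpos.le
      nlinarith
    · have : τ.re / N * N < ((⌊τ.re / N⌋ : ℝ) + 1) * N := mul_lt_mul_of_pos_right h2 hNpos
      nlinarith
  have := hstrip τ' (him ▸ hτ) hre'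
  rw [← hper]
  rw [him] at this
  exact this

end Fermat.Agent.H21
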