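import Fermat.Agent.H21.Assembly
import Fermat.Agent.H21.EqZero
import Fermat.Agent.H21.Growth
import Fermat.Agent.H36.S22_SmallWeights
import Fermat.Agent.H6.S22_gamma0_exists_generators
import Fermat.Agent.H83.S22_exists_fox
import Fermat.Agent.H32.S22_HeckeRewriting
import Fermat.Agent.H2.S22_exists_isEI

/-!
# Alternative proof of S22 (finiteness of the Hecke algebra) via Eichler cocycles

This is the Eichler-Shimura-type route of project P-HECKEFIN: an independent second proof of
`Module.Finite ℤ (CuspForm.heckeAlgebra N k S)`, not using integral structures of cusp forms.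
-/

set_option autoImplicit false

namespace Fermat.Agent.H21

theorem heckeAlgebra_finite_eichler (N : ℕ) [NeZero N] (k : ℤ) (S : Set ℕ) :
    Module.Finite ℤ (CuspForm.heckeAlgebra N k S) := by
  rcases le_or_gt k 1 with hk | hk
  · exact Fermat.Agent.H36.heckeAlgebra_finite_of_forall_eq_zero N k S
      (Fermat.Agent.H36.cuspForm_eq_zero_of_weight_le_one N k hk)
  · obtain ⟨w, rfl⟩ : ∃ w : ℕ, k = (w : ℤ) + 2 := ⟨(k - 2).toNat, by omega⟩
    obtain ⟨m, gens, hmem, hclos⟩ := Fermat.Agent.H6.gamma0_exists_generators N
    exact Fermat.Agent.H21.heckeAlgebra_finite_of_pieces N w S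
      (Fermat.Agent.H2.exists_isEI w)
      (fun f I hI hP hinv =>
        Fermat.Agent.H21.eq_zero_of_act_invariant_of_growth' N w f I hI hP hinv
          (Fermat.Agent.H21.growth_at_cusp' N w f I hI hP hinv))
      m gens hmem
      (fun γ hγ => Fermat.Agent.H83.exists_fox (CongruenceSubgroup.Gamma0 N) w m gens hclos γ hγ)
      (fun p hp hpN => Fermat.Agent.H32.heckeT_rewriting N p hp hpN)
      (fun p hpN => Fermat.Agent.H32.heckeU_rewriting N p hpN)

end Fermat.Agent.H21
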